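/-
P10 / S56 (Taylor–Wiles primes), assembly of (C-TW), part 3: the character of `G_ℚ` on the `N`-th
roots of unity and its value on Frobenius elements.
-/
import Fermat.Agent.Lib.FrobDensity.Main
import Fermat.Agent.Lib.CFT.Duality.PinfGlobal

set_option autoImplicit false

open Fermat.Agent.CFT Fermat.Agent.CFT.Pinf

namespace Fermat.Agent.TW

noncomputable section

section General

variable {L : Type*} [Field L]

/-- roots of unity of order prime to `q` which are congruent modulo a place over `q` are equal -/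
theorem twp_rootOfUnity_eq_of_valuation_lt (A : ValuationSubring L) {n q : ℕ} (hn : 0 < n)
    (hnq : Nat.Coprime n q) (hA : A.LiesOverPrime q) {s t : L} (hs : s ^ n = 1) (ht : t ^ n = 1)
    (h : A.valuation (s - t) < 1) : s = t := by
  have htA : t ∈ A := Bridge.mem_valuationSubring_of_pow_eq_one A hn ht
  have hsA : s ∈ A := Bridge.mem_valuationSubring_of_pow_eq_one A hn hs
  set t' : A := ⟨t, htA⟩ with ht'
  set s' : A := ⟨s, hsA⟩ with hs'
  have ht'p : t' ^ n = 1 := Subtype.ext ht
  have hs'p : s' ^ n = 1 := Subtype.ext hs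
  have hres : IsLocalRing.residue A s' = IsLocalRing.residue A t' := by
    have h1 : s' - t' ∈ IsLocalRing.maximalIdeal A := (A.valuation_lt_one_iff _).mpr h
    have h2 : IsLocalRing.residue A (s' - t') = 0 := (IsLocalRing.residue_eq_zero_iff _).mpr h1
    rw [map_sub, sub_eq_zero] at h2
    exact h2
  have hqres : IsLocalRing.residue A (q : A) = 0 := by
    obtain ⟨hqA, hqm⟩ := (ValuationSubring.mem_nonunits_iff_exists_mem_maximalIdeal).mp hA
    have : (q : A) = ⟨(q : L), hqA⟩ := Subtype.ext (by simp)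
    rw [this]
    exact (IsLocalRing.residue_eq_zero_iff _).mpr hqm
  have htt : t' * t' ^ (n - 1) = 1 := by rw [← pow_succ', Nat.sub_add_cancel hn, ht'p]
  set u : A := s' * t' ^ (n - 1) with hu
  have hup : u ^ n = 1 := by
    rw [hu, mul_pow, hs'p, one_mul, ← pow_mul, mul_comm, pow_mul, ht'p, one_pow]
  have hures : IsLocalRing.residue A u = 1 := by
    rw [hu, map_mul, hres, ← map_mul, htt, map_one]
  have hu1 : u = 1 := by
    by_contra hne
    have hgeom : (u - 1) * ∑ i ∈ Finset.range n, u ^ i = 0 := by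
      rw [mul_geom_sum, hup, sub_self]
    have hsum : ∑ i ∈ Finset.range n, u ^ i = 0 := by
      rcases mul_eq_zero.mp hgeom with h | h
      · exact absurd (sub_eq_zero.mp h) hne
      · exact h
    have := congrArg (IsLocalRing.residue A) hsum
    rw [map_sum, map_zero] at this
    simp only [map_pow, hures, one_pow, Finset.sum_const, Finset.card_range, nsmul_eq_mul,
      mul_one] at this
    exact Bridge.residue_natCast_ne_zero_of_coprime A hnq hqres (by rw [map_natCast]; exact this)
  have : s' = t' := by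
    calc s' = s' * (t' * t' ^ (n - 1)) := by rw [htt, mul_one]
      _ = u * t' := by rw [hu]; ring
      _ = t' := by rw [hu1, one_mul]
  exact congrArg Subtype.val this

end General

/-- a Frobenius element at a place over `q` raises the roots of unity of order prime to `q` to
the `q`-th power -/
theorem twp_frobenius_rootOfUnity {A : ValuationSubring Qbar} {φ : GQ} {q : ℕ}
    (hA : A.LiesOverPrime q) (hφ : A.IsFrobeniusAt φ q) {n : ℕ} (hn : 0 < n)
    (hnq : Nat.Coprime n q) {t : Qbar} (ht : t ^ n = 1) : φ t = t ^ q := by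
  apply twp_rootOfUnity_eq_of_valuation_lt A hn hnq hA
  · rw [← map_pow, ht, map_one]
  · rw [← pow_mul, mul_comm, pow_mul, ht, one_pow]
  · exact Fermat.Agent.FrobDensity.valuation_frobenius_sub_pow_lt_one hφ
      (Bridge.mem_valuationSubring_of_pow_eq_one A hn ht)

variable (N : ℕ) [NeZero N]

/-- the character of `G_ℚ` on the `N`-th roots of unity -/
def twpChi : GQ →* (ZMod N)ˣ := (zetaQbar_spec N).autToPow ℚ

lemma twpChi_spec (σ : GQ) : zetaQbar N ^ ((twpChi N σ : (ZMod N)ˣ) : ZMod N).val = σ (zetaQbar N) :=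
  (zetaQbar_spec N).autToPow_spec ℚ σ

/-- the kernel of `twpChi` -/
theorem twpChi_eq_one_iff [Fact (1 < N)] (σ : GQ) :
    twpChi N σ = 1 ↔ σ (zetaQbar N) = zetaQbar N := by
  constructor
  · intro h
    have h1 := twpChi_spec N σ
    rw [h, Units.val_one, ZMod.val_one, pow_one] at h1
    exact h1.symm
  · intro h
    have h1 := twpChi_spec N σ
    rw [h] at h1
    apply Units.ext
    apply ZMod.val_injective
    rw [Units.val_one, ZMod.val_one]
    have h2 : zetaQbar N ^ ((twpChi N σ : (ZMod N)ˣ) : ZMod N).val = zetaQbar N ^ 1 := by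
      rw [h1, pow_one]
    exact (zetaQbar_spec N).pow_inj (ZMod.val_lt _) (Fact.out : 1 < N) h2

/-- `twpChi σ = 1` iff `σ` fixes all `N`-th roots of unity -/
theorem twpChi_eq_one_iff_fixes [Fact (1 < N)] (σ : GQ) :
    twpChi N σ = 1 ↔ ∀ μ : Qbar, μ ^ N = 1 → σ μ = μ := by
  rw [twpChi_eq_one_iff]
  constructor
  · intro h μ hμ
    obtain ⟨i, -, rfl⟩ := (zetaQbar_spec N).eq_pow_of_pow_eq_one hμ
    rw [map_pow, h]
  · intro h
    exact h _ (zetaQbar_spec N).pow_eq_one

/-- `twpChi` is trivial on `Gal(ℚ̄/ℚ(ζ_N))` -/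
theorem twpChi_eq_one_of_mem [Fact (1 < N)] {σ : GQ} (hσ : σ ∈ (cycloLevel N).N) :
    twpChi N σ = 1 :=
  (twpChi_eq_one_iff N σ).2 ((mem_cycloLevel_N_iff N σ).1 hσ)

/-- if a Frobenius element at `q ∤ N` is in the kernel of `twpChi`, then `q ≡ 1 mod N` -/
theorem twp_dvd_sub_one_of_frobenius [Fact (1 < N)] {A : ValuationSubring Qbar} {φ : GQ} {q : ℕ}
    (hq : q.Prime) (hNq : Nat.Coprime N q) (hA : A.LiesOverPrime q) (hφ : A.IsFrobeniusAt φ q)
    (h : twpChi N φ = 1) : N ∣ q - 1 := by
  have h1 := twp_frobenius_rootOfUnity hA hφ (NeZero.pos N) hNq (zetaQbar_spec N).pow_eq_one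
  rw [(twpChi_eq_one_iff N φ).1 h] at h1
  rw [← (zetaQbar_spec N).pow_eq_one_iff_dvd]
  have hζ0 : zetaQbar N ≠ 0 := (zetaQbar_spec N).ne_zero (NeZero.ne N)
  have h2 : zetaQbar N ^ (q - 1) * zetaQbar N = 1 * zetaQbar N := by
    rw [← pow_succ, Nat.sub_add_cancel hq.one_le, one_mul]
    exact h1.symm
  exact mul_right_cancel₀ hζ0 h2

end

end Fermat.Agent.TW
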