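/-
P10 / S56 (Taylor–Wiles primes), assembly of (C-TW), part 1: unramified descent.

A class in `H¹(G_ℚ, M)` which is admissible for `S₁ ∪ {l}` (`M` unramified at `l`) and whose
restriction to `G_l` vanishes is admissible for `S₁`.
-/
import Fermat.Agent.Lib.TW.Points
import Fermat.Agent.Lib.TW.Local.PlaceConj
import Fermat.Agent.Lib.CFT.Bridge.Levels
import Fermat.Agent.Lib.CFT.S14.LevelOfKernel

set_option autoImplicit false

open Fermat.Agent.S53Lib groupCohomology ExtCitation CategoryTheory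

namespace Fermat.Agent.TW

noncomputable section

variable {k : Type} [Field k]

/-- **(R4)** every element of the decomposition group of the distinguished place over `q` is, on
every finite level, induced by an element of the local Galois group. -/
def TwpR4 (q : Nat.Primes) : Prop :=
  ∀ σ ∈ (primeLocalPlace q).decompositionSubgroup ℚ,
    ∀ F : IntermediateField ℚ (AlgebraicClosure ℚ), FiniteDimensional ℚ F →
      ∃ τ : primeLocalGaloisGroup q, ∀ x ∈ F, primeLocalToGlobal q τ x = σ x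

/-- `M` is trivial on an open subgroup of `G_ℚ` -/
def TwpTrivialOnLevel (M : Rep.{0} k GQ) : Prop :=
  ∃ F : IntermediateField ℚ (AlgebraicClosure ℚ), FiniteDimensional ℚ F ∧
    ∀ s ∈ F.fixingSubgroup, M.ρ s = 1

/-- (R4), multiplicative form -/
theorem twp_exists_local_mul {q : Nat.Primes} (hR4 : TwpR4 q) {σ : GQ}
    (hσ : σ ∈ (primeLocalPlace q).decompositionSubgroup ℚ)
    (F : IntermediateField ℚ (AlgebraicClosure ℚ)) (hF : FiniteDimensional ℚ F) :
    ∃ τ : primeLocalGaloisGroup q, ∃ n ∈ F.fixingSubgroup, σ = primeLocalToGlobal q τ * n := by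
  obtain ⟨τ, hτ⟩ := hR4 σ hσ F hF
  refine ⟨τ, (primeLocalToGlobal q τ)⁻¹ * σ, ?_, by rw [mul_inv_cancel_left]⟩
  rw [IntermediateField.mem_fixingSubgroup_iff]
  intro x hx
  rw [AlgEquiv.mul_apply, ← hτ x hx]
  exact (primeLocalToGlobal q τ).symm_apply_apply x

/-- the subgroup of `G_ℚ` on which a cocycle "is trivial" -/
def twpCocycleKer (M : Rep.{0} k GQ) (c : cocycles₁ M) : Subgroup GQ where
  carrier := {g | M.ρ g = 1 ∧ c g = 0}
  one_mem' := ⟨map_one _, cocycles₁_map_one c⟩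
  mul_mem' := by
    rintro a b ⟨ha, ha'⟩ ⟨hb, hb'⟩
    refine ⟨by rw [map_mul, ha, hb, one_mul], ?_⟩
    rw [(mem_cocycles₁_iff (c : GQ → M)).1 c.2 a b, ha', hb', map_zero, add_zero]
  inv_mem' := by
    rintro a ⟨ha, ha'⟩
    have h1 : M.ρ a⁻¹ = 1 := by
      have : M.ρ a⁻¹ * M.ρ a = 1 := by rw [← map_mul, inv_mul_cancel, map_one]
      rwa [ha, mul_one] at this
    refine ⟨h1, ?_⟩
    have h2 := (mem_cocycles₁_iff (c : GQ → M)).1 c.2 a⁻¹ a
    rw [inv_mul_cancel, cocycles₁_map_one, ha', map_zero, zero_add] at h2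
    exact h2.symm

lemma mem_twpCocycleKer {M : Rep.{0} k GQ} {c : cocycles₁ M} {g : GQ} :
    g ∈ twpCocycleKer M c ↔ M.ρ g = 1 ∧ c g = 0 := Iff.rfl

instance twpCocycleKer_normal (M : Rep.{0} k GQ) (c : cocycles₁ M) : (twpCocycleKer M c).Normal := by
  constructor
  rintro g ⟨hg, hg'⟩ x
  have hcoc := (mem_cocycles₁_iff (c : GQ → M)).1 c.2
  refine ⟨by rw [map_mul, map_mul, hg, mul_one, ← map_mul, mul_inv_cancel, map_one], ?_⟩
  rw [hcoc, hcoc, hg', map_zero, zero_add]
  have h2 := hcoc x x⁻¹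
  rw [mul_inv_cancel, cocycles₁_map_one] at h2
  rw [map_mul, hg, mul_one]
  exact h2.symm

lemma twpCocycleKer_mul {M : Rep.{0} k GQ} {c : cocycles₁ M} {g s : GQ}
    (hs : s ∈ twpCocycleKer M c) : c (g * s) = c g := by
  rw [(mem_cocycles₁_iff (c : GQ → M)).1 c.2 g s, hs.2, map_zero, zero_add]

/-- inertia groups are contained in decomposition groups -/
lemma twp_inertia_le_decomp (A : ValuationSubring (AlgebraicClosure ℚ)) :
    A.inertiaSubgroupIn ℚ ≤ A.decompositionSubgroup ℚ := fun _ hσ =>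
  ((Fermat.Agent.CFT.Bridge.mem_inertiaSubgroupIn_iff A _).1 hσ).1

lemma twp_primeLocalPlace_liesOver (q : Nat.Primes) :
    (primeLocalPlace q).LiesOverPrime (q : ℕ) := by
  have : Fact (q : ℕ).Prime := ⟨q.2⟩
  exact Fermat.Agent.CFT.S14.padicPlace_liesOverPrime (q : ℕ)

/-- **Unramified descent.**  Let `M` be trivial on an open subgroup and unramified outside `S₁`,
and `l ∉ S₁`.  A class which is admissible for `S₁ ∪ {l}` and restricts to `0` in `H¹(G_l, M)` is
admissible for `S₁`. -/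
theorem twp_descent (S₁ : Finset Nat.Primes) (l : Nat.Primes) (hl : l ∉ S₁) (M : Rep.{0} k GQ)
    (hR4 : TwpR4 l) (hM : TwpTrivialOnLevel M) (hunr : IsUnramifiedOutsideRep S₁ M)
    {x : H1 M} (hx : x ∈ continuousH1S (insert l S₁) M) (hres : resAt l M x = 0) :
    x ∈ continuousH1S S₁ M := by
  classical
  rw [mem_continuousH1S_iff] at hx ⊢
  obtain ⟨c, ⟨F, ⟨hFfin, hFunr⟩, hconst⟩, rfl⟩ := hx
  obtain ⟨F₀, hF₀fin, hF₀⟩ := hM
  rw [resAt_H1π, H1π_eq_zero_iff] at hres
  obtain ⟨y, hy⟩ := hres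
  have hy' : ∀ τ : primeLocalGaloisGroup l,
      c (primeLocalToGlobal l τ) = M.ρ (primeLocalToGlobal l τ) y - y := by
    intro τ
    have := congrFun hy τ
    rw [d₀₁_hom_apply] at this
    exact this.symm
  have hc1 : c 1 = 0 := cocycles₁_map_one c
  -- the modified cocycle
  let c' : cocycles₁ M := c - ⟨(d₀₁ M).hom y, d₀₁_apply_mem_cocycles₁ y⟩
  have hc' : ∀ g, c' g = c g - (M.ρ g y - y) := by
    intro g
    show c g - (d₀₁ M).hom y g = _
    rw [d₀₁_hom_apply]
  have hclass : H1π M c' = H1π M c := by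
    rw [H1π_eq_iff]
    refine ⟨-y, ?_⟩
    funext g
    rw [d₀₁_hom_apply, Pi.sub_apply]
    show _ = c' g - c g
    rw [hc', map_neg]
    abel
  have hFfin' : FiniteDimensional ℚ F := hFfin
  have hF₀fin' : FiniteDimensional ℚ F₀ := hF₀fin
  -- the subgroup
  set H := twpCocycleKer M c' with hH
  have hF'H : (F ⊔ F₀).fixingSubgroup ≤ H := by
    intro s hs
    rw [IntermediateField.fixingSubgroup_sup] at hs
    have hρ : M.ρ s = 1 := hF₀ s hs.2
    refine ⟨hρ, ?_⟩
    rw [hc', hρ, Module.End.one_apply, sub_self, sub_zero]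
    have := hconst 1 s hs.1
    rw [one_mul] at this
    rw [this, hc1]
  have hopen : IsOpen (H : Set GQ) :=
    Subgroup.isOpen_mono hF'H (IntermediateField.fixingSubgroup_isOpen (F ⊔ F₀))
  -- inertia at the distinguished place over `l`
  have hI₀ : (primeLocalPlace l).inertiaSubgroupIn ℚ ≤ H := by
    intro g hg
    have hρ : M.ρ g = 1 := hunr l hl _ (twp_primeLocalPlace_liesOver l) g hg
    obtain ⟨τ, n, hn, rfl⟩ := twp_exists_local_mul hR4 (twp_inertia_le_decomp _ hg) (F ⊔ F₀)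
      inferInstance
    refine ⟨hρ, ?_⟩
    rw [twpCocycleKer_mul (hF'H hn), hc', hy', sub_self]
  have hI : ∀ q : Nat.Primes, q ∉ S₁ → ∀ A : ValuationSubring (AlgebraicClosure ℚ),
      A.LiesOverPrime (q : ℕ) → A.inertiaSubgroupIn ℚ ≤ H := by
    intro q hq A hA g hg
    by_cases hql : q = l
    · subst hql
      obtain ⟨h, rfl⟩ := tw_exists_smul_eq_of_liesOverPrime (primeLocalPlace q) A q.2
        (twp_primeLocalPlace_liesOver q) hA
      rw [Fermat.Agent.CFT.Bridge.mem_inertiaSubgroupIn_smul_iff] at hg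
      have h1 := hI₀ hg
      have h2 := (twpCocycleKer_normal M c').conj_mem _ h1 h
      have h3 : h * (h⁻¹ * g * h) * h⁻¹ = g := by group
      rwa [h3] at h2
    · have hq' : q ∉ insert l S₁ := by
        rw [Finset.mem_insert]
        push Not
        exact ⟨hql, hq⟩
      have hgF := hFunr q hq' A hA hg
      have hρ : M.ρ g = 1 := hunr q hq A hA g hg
      refine ⟨hρ, ?_⟩
      rw [hc', hρ, Module.End.one_apply, sub_self, sub_zero]
      have := hconst 1 g hgF
      rw [one_mul] at this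
      rw [this, hc1]
  obtain ⟨Lv, hLv⟩ := Fermat.Agent.CFT.Bridge.exists_level_N_eq H hopen
  refine ⟨c', ⟨Lv.toIntermediateField, ⟨inferInstance, fun q hq A hA => ?_⟩, fun g s hs => ?_⟩,
    hclass⟩
  · show A.inertiaSubgroupIn ℚ ≤ Lv.N
    rw [hLv]
    exact hI q hq A hA
  · have hs' : s ∈ Lv.N := hs
    rw [hLv] at hs'
    exact twpCocycleKer_mul hs'

end

end Fermat.Agent.TW
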