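/-
P10 / S56 (Taylor–Wiles primes), assembly of (C-TW), part 4: Frobenius elements.

* two Frobenius elements over the same prime are conjugate modulo inertia;
* `IsTWPrime` can be checked on one Frobenius element at one place;
* the Taylor–Wiles trace condition `tr(c(φ) ρ(φ)) ≠ 0` is invariant under conjugation.
-/
import Fermat.Agent.Lib.TW.GroupDual
import Fermat.Agent.Lib.TW.Local.DecompStructure
import Fermat.Agent.Lib.TW.TWPrimes.Descent

set_option autoImplicit false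

open Polynomial groupCohomology Fermat.Agent.S53Lib ExtCitation
open scoped Pointwise

namespace Fermat.Agent.TW

noncomputable section

/-- two Frobenius elements at conjugate places are conjugate modulo inertia -/
theorem twp_frobenius_conj_mul_mem_inertia {A : ValuationSubring (AlgebraicClosure ℚ)} {q : ℕ}
    {φ φ' : GQ} (g : GQ) (hφ : A.IsFrobeniusAt φ q) (hφ' : (g • A).IsFrobeniusAt φ' q) :
    φ⁻¹ * (g⁻¹ * φ' * g) ∈ A.inertiaSubgroupIn ℚ := by
  have hD : φ ∈ A.decompositionSubgroup ℚ := hφ.mem_decompositionSubgroup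
  have hD' : g⁻¹ * φ' * g ∈ A.decompositionSubgroup ℚ := by
    have h1 : φ' ∈ (g • A).decompositionSubgroup ℚ := hφ'.mem_decompositionSubgroup
    rw [MulAction.mem_stabilizer_iff] at h1 ⊢
    rw [mul_smul, mul_smul, h1, inv_smul_smul]
  rw [Fermat.Agent.CFT.Bridge.mem_inertiaSubgroupIn_iff]
  refine ⟨mul_mem (inv_mem hD) hD', fun x hx => ?_⟩
  have h1 : A.valuation (φ x - x ^ q) < 1 :=
    Fermat.Agent.FrobDensity.valuation_frobenius_sub_pow_lt_one hφ hx
  have hgx : g x ∈ g • A := ValuationSubring.smul_mem_pointwise_smul_iff.2 hx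
  have h2 : (g • A).valuation (φ' (g x) - (g x) ^ q) < 1 :=
    Fermat.Agent.FrobDensity.valuation_frobenius_sub_pow_lt_one hφ' hgx
  have h3 : A.valuation ((g⁻¹ * φ' * g) x - x ^ q) < 1 := by
    have h4 : φ' (g x) - (g x) ^ q = g ((g⁻¹ * φ' * g) x - x ^ q) := by
      rw [map_sub, map_pow, AlgEquiv.mul_apply, AlgEquiv.mul_apply]
      congr 1
      exact (g.apply_symm_apply _).symm
    rw [h4, Fermat.Agent.CFT.Bridge.valuation_smul_lt_one_iff] at h2
    exact h2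
  have h5 : A.valuation ((g⁻¹ * φ' * g) x - φ x) < 1 := by
    have : (g⁻¹ * φ' * g) x - φ x = ((g⁻¹ * φ' * g) x - x ^ q) + - (φ x - x ^ q) := by ring
    rw [this]
    exact Valuation.map_add_lt _ h3 (by rw [Valuation.map_neg]; exact h1)
  have h6 : (φ⁻¹ * (g⁻¹ * φ' * g)) x - x = φ⁻¹ ((g⁻¹ * φ' * g) x - φ x) := by
    rw [map_sub, AlgEquiv.mul_apply]
    congr 1
    exact (φ.symm_apply_apply x).symm
  rw [h6, tw_valuation_lt_one_of_mem_decomp (inv_mem hD)]
  exact h5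

section Rep

variable {k : Type} [Field k] (ρbar : ResidualGaloisRep k)

/-- the characteristic polynomial of `ρbar` is a class function -/
lemma twp_charpoly_conj (g σ : GQ) :
    LinearMap.charpoly (ρbar.ρ (g * σ * g⁻¹)) = LinearMap.charpoly (ρbar.ρ σ) := by
  rw [twg_charpoly_eq ρbar.finrank_eq, twg_charpoly_eq ρbar.finrank_eq (ρbar.ρ σ)]
  have h1 : ρbar.ρ g⁻¹ * ρbar.ρ g = 1 := rho_inv_mul_rho ρbar g
  have htr : LinearMap.trace k ρbar.V (ρbar.ρ (g * σ * g⁻¹)) =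
      LinearMap.trace k ρbar.V (ρbar.ρ σ) := by
    rw [map_mul ρbar.ρ, map_mul ρbar.ρ, LinearMap.trace_mul_comm, ← mul_assoc, h1, one_mul]
  have hdet : LinearMap.det (ρbar.ρ (g * σ * g⁻¹)) = LinearMap.det (ρbar.ρ σ) := by
    rw [map_mul ρbar.ρ, map_mul ρbar.ρ, map_mul LinearMap.det, map_mul LinearMap.det, mul_comm,
      ← mul_assoc, ← map_mul LinearMap.det, h1, map_one, one_mul]
  rw [htr, hdet]

/-- **`IsTWPrime` from one Frobenius element.** -/
theorem twp_isTWPrime_of_frobenius {l : ℕ} (hl : l.Prime)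
    {P : ValuationSubring (AlgebraicClosure ℚ)} {φ : GQ} (hP : P.LiesOverPrime l)
    (hφ : P.IsFrobeniusAt φ l) (hI : ∀ τ ∈ P.inertiaSubgroupIn ℚ, ρbar.ρ τ = 1) {α β : k}
    (hαβ : α ≠ β) (hch : LinearMap.charpoly (ρbar.ρ φ) = (X - C α) * (X - C β)) :
    IsTWPrime ρbar l := by
  intro P' hP' φ' hφ'
  obtain ⟨g, rfl⟩ := tw_exists_smul_eq_of_liesOverPrime P P' hl hP hP'
  refine ⟨α, β, hαβ, ?_⟩
  have h1 := hI _ (twp_frobenius_conj_mul_mem_inertia g hφ hφ')
  have h2 : ρbar.ρ (g⁻¹ * φ' * g) = ρbar.ρ φ := by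
    have : ρbar.ρ φ * ρbar.ρ (φ⁻¹ * (g⁻¹ * φ' * g)) = ρbar.ρ (g⁻¹ * φ' * g) := by
      rw [← map_mul, mul_inv_cancel_left]
    rw [← this, h1, mul_one]
  have h3 := twp_charpoly_conj ρbar g⁻¹ φ'
  rw [inv_inv, h2] at h3
  rw [← h3, hch]

end Rep

section Trace

variable {k V G : Type*} [Field k] [AddCommGroup V] [Module k V] [Group G]

/-- the Taylor–Wiles trace condition is invariant under conjugation (up to the unit `det ρ(g)`) -/
theorem twp_trace_conj (ρ : Representation k G V) {c : G → Module.End k V}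
    (hc : TwgIsCocycle (twgAdDetRep ρ) c) (g φ : G) (hdet : LinearMap.det (ρ φ) = 1) :
    LinearMap.trace k V (c (g * φ * g⁻¹) * ρ (g * φ * g⁻¹)) =
      LinearMap.det (ρ g) * LinearMap.trace k V (c φ * ρ φ) := by
  have hR : ρ g⁻¹ * ρ g = 1 := by rw [← map_mul, inv_mul_cancel, map_one]
  have hR' : ρ g * ρ g⁻¹ = 1 := by rw [← map_mul, mul_inv_cancel, map_one]
  set Φ := g * φ * g⁻¹ with hΦ
  have hdetΦ : LinearMap.det (ρ Φ) = 1 := by
    rw [hΦ, map_mul ρ, map_mul ρ, map_mul LinearMap.det, map_mul LinearMap.det, mul_comm,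
      ← mul_assoc, ← map_mul LinearMap.det, hR, map_one, one_mul, hdet]
  have hΦinv : ρ Φ * ρ Φ⁻¹ = 1 := by rw [← map_mul, mul_inv_cancel, map_one]
  have hΦinv' : ρ Φ⁻¹ * ρ Φ = 1 := by rw [← map_mul, inv_mul_cancel, map_one]
  have hcΦ : c Φ = c g + twgAdDetRep ρ g (c φ) - twgAdDetRep ρ Φ (c g) := by
    have h1 : g * φ * g⁻¹ = (g * φ) * g⁻¹ := rfl
    rw [hΦ, h1, hc (g * φ) g⁻¹, hc g φ, hc.map_inv, map_neg, ← Module.End.mul_apply, ← map_mul]
    abel
  have e1 : LinearMap.trace k V (twgAdDetRep ρ Φ (c g) * ρ Φ) =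
      LinearMap.trace k V (c g * ρ Φ) := by
    rw [twgAdDetRep_apply, hdetΦ, one_smul, mul_assoc, hΦinv', mul_one,
      LinearMap.trace_mul_comm]
  have e2 : LinearMap.trace k V (twgAdDetRep ρ g (c φ) * ρ Φ) =
      LinearMap.det (ρ g) * LinearMap.trace k V (c φ * ρ φ) := by
    rw [twgAdDetRep_apply, smul_mul_assoc, map_smul, smul_eq_mul]
    congr 1
    have : ρ g * c φ * ρ g⁻¹ * ρ Φ = ρ g * (c φ * ρ φ * ρ g⁻¹) := by
      rw [hΦ, map_mul ρ, map_mul ρ]
      calc ρ g * c φ * ρ g⁻¹ * (ρ g * ρ φ * ρ g⁻¹)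
          = ρ g * c φ * (ρ g⁻¹ * ρ g) * ρ φ * ρ g⁻¹ := by simp only [mul_assoc]
        _ = ρ g * (c φ * ρ φ * ρ g⁻¹) := by rw [hR, mul_one]; simp only [mul_assoc]
    rw [this, LinearMap.trace_mul_comm, mul_assoc, hR, mul_one]
  rw [hcΦ, sub_mul, add_mul, map_sub, map_add, e1, e2]
  ring

end Trace

end

end Fermat.Agent.TW
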