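/-
P10 / S56 (Taylor–Wiles primes), assembly of (C-TW), part 5: auxiliary statements for the
selection of a Taylor–Wiles prime.

* `twp_regular_frob` : the cocycle-free part of `twg_selection_frob`;
* `twp_exists_traceZero_ne_zero`;
* `twp_resAt_ne_zero` : `tr(ψ(φ) ρbar(φ)) ≠ 0` for `φ` in a decomposition group over `l`
  (`det ρbar(φ) = 1`) implies that the class of `c` does not vanish in `H¹(G_l, (ad⁰)^*(1))`.
-/
import Fermat.Agent.Lib.TW.TWPrimes.Frob
import Fermat.Agent.Lib.TW.TWPrimes.Selmer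

set_option autoImplicit false

open Polynomial groupCohomology Fermat.Agent.S53Lib ExtCitation
open scoped Pointwise

namespace Fermat.Agent.TW

noncomputable section

section Group

variable {k V G : Type*} [Field k] [AddCommGroup V] [Module k V] [Group G]

/-- powers of a regular semisimple element: the characteristic polynomial -/
theorem twp_charpoly_pow [Module.Finite k V] (hV : Module.finrank k V = 2) (M : Module.End k V)
    (α β : k) (hαβ : α ≠ β) (hch : LinearMap.charpoly M = (X - C α) * (X - C β)) (a : ℕ) :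
    LinearMap.charpoly (M ^ a) = (X - C (α ^ a)) * (X - C (β ^ a)) := by
  have hsub : α - β ≠ 0 := sub_ne_zero.mpr hαβ
  have hM := twg_aeval_charpoly M α β hch
  have hpowM := twg_pow_eq M α β hαβ hM a
  obtain ⟨htrM, hdetM⟩ := twg_det_of_charpoly hV M α β hch
  have htr1 : LinearMap.trace k V (1 : Module.End k V) = 2 := by
    rw [LinearMap.trace_one, hV]; norm_num
  rw [twg_charpoly_eq hV, map_pow LinearMap.det, hdetM]
  have h1 : LinearMap.trace k V (M ^ a) = α ^ a + β ^ a := by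
    rw [hpowM, map_add, map_smul, map_smul, htrM, htr1, smul_eq_mul, smul_eq_mul]
    field_simp
    ring
  rw [h1]
  simp only [map_add, map_mul, map_pow]
  ring

/-- **Frobenius form of the selection, without cocycle.**  Let `N` be a subgroup on which `ρ` is
trivial, `σ` with `det ρ(σ) = 1` and `ρ(σ)` regular semisimple, `σ^m ∈ N`, `a` prime to `m` and
`φ ≡ σ^a` modulo `N`.  Then `ρ(φ)` is regular semisimple. -/
theorem twp_regular_frob [Module.Finite k V] (hV : Module.finrank k V = 2)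
    (ρ : Representation k G V) (N : Subgroup G) (hNρ : ∀ n ∈ N, ρ n = 1)
    (σ : G) (hdet : LinearMap.det (ρ σ) = 1) (α β : k) (hαβ : α ≠ β)
    (hch : LinearMap.charpoly (ρ σ) = (X - C α) * (X - C β))
    (m : ℕ) (hσm : σ ^ m ∈ N) (a : ℕ) (ham : a.Coprime m)
    (φ : G) (hφ : (σ ^ a)⁻¹ * φ ∈ N) :
    ∃ α' β' : k, α' ≠ β' ∧ LinearMap.charpoly (ρ φ) = (X - C α') * (X - C β') := by
  obtain ⟨htrM, hdetM⟩ := twg_det_of_charpoly hV (ρ σ) α β hch
  rw [hdet] at hdetM
  have hα0 : α ≠ 0 := left_ne_zero_of_mul_eq_one hdetM.symm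
  have hβ0 : β ≠ 0 := right_ne_zero_of_mul_eq_one hdetM.symm
  have hM := twg_aeval_charpoly (ρ σ) α β hch
  -- `α^m = β^m`
  have hchm := twp_charpoly_pow hV (ρ σ) α β hαβ hch m
  have h1 : ρ σ ^ m = 1 := by rw [← map_pow]; exact hNρ _ hσm
  have hm1 : α ^ m = β ^ m := by
    rw [h1] at hchm
    obtain ⟨e1, e2⟩ := twg_det_of_charpoly hV (1 : Module.End k V) _ _ hchm
    have htr1 : LinearMap.trace k V (1 : Module.End k V) = 2 := by
      rw [LinearMap.trace_one, hV]; norm_num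
    rw [htr1] at e1
    rw [map_one] at e2
    have e3 : (α ^ m - β ^ m) ^ 2 = 0 := by linear_combination (α ^ m + β ^ m + 2) * (-e1) + 4 * e2
    exact sub_eq_zero.mp (pow_eq_zero_iff (two_ne_zero) |>.mp e3)
  have hpow : α ^ a ≠ β ^ a := by
    intro h
    have hr1 : (α / β) ^ a = 1 := by rw [div_pow, h, div_self (pow_ne_zero _ hβ0)]
    have hr2 : (α / β) ^ m = 1 := by rw [div_pow, hm1, div_self (pow_ne_zero _ hβ0)]
    have h1 := orderOf_dvd_of_pow_eq_one hr1
    have h3 := orderOf_dvd_of_pow_eq_one hr2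
    have h4 := Nat.dvd_gcd h1 h3
    rw [Nat.Coprime] at ham
    rw [ham, Nat.dvd_one, orderOf_eq_one_iff] at h4
    exact hαβ ((div_eq_one_iff_eq hβ0).mp h4)
  set n' := (σ ^ a)⁻¹ * φ with hn'
  have hφ' : φ = σ ^ a * n' := by rw [hn', mul_inv_cancel_left]
  have hρφ : ρ φ = ρ σ ^ a := by rw [hφ', map_mul, hNρ n' hφ, mul_one, map_pow]
  refine ⟨α ^ a, β ^ a, hpow, ?_⟩
  rw [hρφ]
  exact twp_charpoly_pow hV (ρ σ) α β hαβ hch a

/-- there is a non-zero trace-zero endomorphism -/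
theorem twp_exists_traceZero_ne_zero [Module.Finite k V] (hV : Module.finrank k V = 2) :
    ∃ w : Module.End k V, LinearMap.trace k V w = 0 ∧ w ≠ 0 := by
  let b : Module.Basis (Fin 2) k V := Module.finBasisOfFinrankEq k V hV
  refine ⟨Matrix.toLin b b !![0, 1; 0, 0], ?_, ?_⟩
  · rw [LinearMap.trace_eq_matrix_trace k b, LinearMap.toMatrix_toLin, Matrix.trace_fin_two]
    simp
  · intro h
    have h1 := congrArg (LinearMap.toMatrix b b) h
    rw [LinearMap.toMatrix_toLin, map_zero] at h1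
    have h2 := congrFun (congrFun h1 0) 1
    simp at h2

end Group

section ResAt

variable {k : Type} [Field k] (p : ℕ) [Fact p.Prime] [Algebra (ZMod p) k]
  (ρbar : ResidualGaloisRep k)

/-- **(T4)**  Let `c` be a cocycle with values in `(ad⁰ ρbar)^*(1)`, constant modulo a finite level
`F` on which `(ad⁰ ρbar)^*(1)` is trivial.  If `φ` lies in the decomposition group of a place over
`l`, `det ρbar(φ) = 1` and `tr(ψ(φ) ρbar(φ)) ≠ 0` (`ψ` the `End`-valued cocycle attached to `c`),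
then the class of `c` restricts to a non-zero class in `H¹(G_l, (ad⁰ ρbar)^*(1))`. -/
theorem twp_resAt_ne_zero (h2 : (2 : k) ≠ 0)
    (hdetK : ∀ σ : GQ, LinearMap.det (ρbar.ρ σ) = ((cycloK p k σ : kˣ) : k))
    (c : cocycles₁ (tateDual p (ad0Rep ρbar)))
    (F : IntermediateField ℚ (AlgebraicClosure ℚ)) (hF : FiniteDimensional ℚ F)
    (hFc : ∀ g s, s ∈ F.fixingSubgroup → c (g * s) = c g)
    (hFρ : ∀ s ∈ F.fixingSubgroup, (tateDual p (ad0Rep ρbar)).ρ s = 1)
    (l : Nat.Primes) (hR4 : TwpR4 l) {P : ValuationSubring (AlgebraicClosure ℚ)}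
    (hP : P.LiesOverPrime (l : ℕ)) {φ : GQ} (hφ : φ ∈ P.decompositionSubgroup ℚ)
    (hdet : LinearMap.det (ρbar.ρ φ) = 1)
    (htr : LinearMap.trace k ρbar.V (twgPsi ρbar h2 c φ * ρbar.ρ φ) ≠ 0) :
    resAt l (tateDual p (ad0Rep ρbar)) (H1π (tateDual p (ad0Rep ρbar)) c) ≠ 0 := by
  intro hres
  rw [resAt_H1π, H1π_eq_zero_iff] at hres
  obtain ⟨y, hy⟩ := hres
  have hy' : ∀ τ : primeLocalGaloisGroup l, c (primeLocalToGlobal l τ) =
      (tateDual p (ad0Rep ρbar)).ρ (primeLocalToGlobal l τ) y - y := by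
    intro τ
    have := congrFun hy τ
    rw [d₀₁_hom_apply] at this
    exact this.symm
  obtain ⟨g, hg⟩ := tw_exists_smul_eq_of_liesOverPrime P (primeLocalPlace l) l.2 hP
    (twp_primeLocalPlace_liesOver l)
  set φ₀ := g * φ * g⁻¹ with hφ₀
  have hφ₀D : φ₀ ∈ (primeLocalPlace l).decompositionSubgroup ℚ := by
    rw [MulAction.mem_stabilizer_iff] at hφ ⊢
    rw [← hg, hφ₀, mul_smul, mul_smul, inv_smul_smul, hφ]
  obtain ⟨τ, n, hn, hφ₀'⟩ := twp_exists_local_mul hR4 hφ₀D F hF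
  have hρ₀ : (tateDual p (ad0Rep ρbar)).ρ φ₀ =
      (tateDual p (ad0Rep ρbar)).ρ (primeLocalToGlobal l τ) := by
    rw [hφ₀', map_mul, hFρ n hn, mul_one]
  have hcφ₀ : c φ₀ = (tateDual p (ad0Rep ρbar)).ρ φ₀ y - y := by
    rw [hρ₀, ← hy', hφ₀', hFc _ _ hn]
  -- the trace condition at `φ₀`
  have hcoc := twgPsi_isCocycle ρbar h2 hdetK c
  have htr₀ := twp_trace_conj ρbar.ρ hcoc g φ hdet
  have hdetg : LinearMap.det (ρbar.ρ g) ≠ 0 := by
    intro h0
    have h1 : LinearMap.det (ρbar.ρ g) * LinearMap.det (ρbar.ρ g⁻¹) = 1 := by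
      rw [← map_mul LinearMap.det, rho_mul_rho_inv, map_one]
    rw [h0, zero_mul] at h1
    exact zero_ne_one h1
  have hdet₀ : LinearMap.det (ρbar.ρ φ₀) = 1 := by
    have h1 : ρbar.ρ g⁻¹ * ρbar.ρ g = 1 := rho_inv_mul_rho ρbar g
    rw [hφ₀, map_mul ρbar.ρ, map_mul ρbar.ρ, map_mul LinearMap.det, map_mul LinearMap.det,
      mul_comm, ← mul_assoc, ← map_mul LinearMap.det, h1, map_one, one_mul, hdet]
  refine twg_not_mem_range_of_trace ρbar.ρ φ₀ hdet₀ (twgPsi ρbar h2 c φ₀) ?_ ?_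
  · rw [htr₀]
    exact mul_ne_zero hdetg htr
  · refine ⟨ad0Val ρbar ((twgThetaEquiv ρbar h2).symm y), ?_⟩
    unfold twgPsi
    rw [hcφ₀, map_sub, twgTheta_symm_ρ, ad0Val_sub, ad0Val_smul, ad0Val_ρ, adRepn_apply,
      twgAdDetRep_apply, hdetK φ₀]
    rfl

end ResAt

end

end Fermat.Agent.TW
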