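/-
P10 / S56 (Taylor–Wiles primes), assembly of (C-TW), part 6: existence of a Taylor–Wiles prime
`l ≡ 1 mod p^(n+1)` outside a given finite set at which a given class of `H¹(G_ℚ, (ad⁰ ρbar)^*(1))`
does not vanish.
-/
import Fermat.Agent.Lib.TW.TWPrimes.Select
import Fermat.Agent.Lib.TW.TWPrimes.Cyclo

set_option autoImplicit false
set_option linter.style.haveILetI false

open Polynomial groupCohomology Fermat.Agent.S53Lib ExtCitation
open Fermat.Agent.CFT.Pinf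
open scoped Pointwise

namespace Fermat.Agent.TW

noncomputable section

variable {k : Type} [Field k] [Finite k] (p : ℕ) [Fact p.Prime] [Algebra (ZMod p) k]
  (ρbar : ResidualGaloisRep k)

/-- **Selection of `σ`.**  There is `σ ∈ G_ℚ` fixing `μ_{p^(n+1)}` such that `ρbar(σ)` has distinct
eigenvalues in `k` and, if the class of `c` is non-zero, `tr(ψ(σ) ρbar(σ)) ≠ 0`. -/
theorem twp_exists_sigma (hp2 : p ≠ 2) (hpk : (p : k) = 0) (h2 : (2 : k) ≠ 0)
    (habs : ρbar.IsAbsolutelyIrreducible)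
    (hdet : (GaloisRepAdic.ofResidualGaloisRep ρbar).DetIsCyclotomic p)
    (hsplit : ∀ σ : AlgebraicClosure ℚ ≃ₐ[ℚ] AlgebraicClosure ℚ,
      ∃ α β : k, LinearMap.charpoly (ρbar.ρ σ) = (X - C α) * (X - C β))
    (hTW : ∀ (K : Type) [Field K] [Algebra k K]
      (G : Subgroup (AlgebraicClosure ℚ ≃ₐ[ℚ] AlgebraicClosure ℚ)), G.index = 2 →
      ∀ V : Submodule K (ρbar.baseChange K).V,
        (∀ σ ∈ G, ∀ x ∈ V, (ρbar.baseChange K).ρ σ x ∈ V) → V = ⊥ ∨ V = ⊤)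
    (c : cocycles₁ (tateDual p (ad0Rep ρbar))) (n : ℕ) :
    ∃ σ : GQ, twpChi (p ^ (n + 1)) σ = 1 ∧ ∃ α β : k, α ≠ β ∧
      LinearMap.charpoly (ρbar.ρ σ) = (X - C α) * (X - C β) ∧
      (H1π (tateDual p (ad0Rep ρbar)) c ≠ 0 →
        LinearMap.trace k ρbar.V (twgPsi ρbar h2 c σ * ρbar.ρ σ) ≠ 0) := by
  have hp : p.Prime := Fact.out
  haveI : Fact (1 < p ^ (n + 1)) := ⟨Nat.one_lt_pow (Nat.succ_ne_zero n) hp.one_lt⟩
  haveI : CharP k p := (CharP.charP_iff_prime_eq_zero hp).2 hpk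
  haveI : IsCyclic (ZMod (p ^ (n + 1)))ˣ := ZMod.isCyclic_units_of_prime_pow p hp hp2 (n + 1)
  have hV := ρbar.finrank_eq
  have hsplit' := twg_split_of_hsplit ρbar hsplit
  have hirr := twg_irr_of_abs ρbar habs
  have hirr2 : ∀ G' : Subgroup GQ, G'.index = 2 → TwgIrr ρbar.ρ G' :=
    fun G' hG' => twg_irr2_of_hTW ρbar hTW G' hG'
  have hdetK := twg_det_eq_cycloK ρbar p hpk hdet
  have hcyc := twg_exists_generator_mod_ker (twpChi (p ^ (n + 1)))
  have hdetχ : ∀ g, twpChi (p ^ (n + 1)) g = 1 → LinearMap.det (ρbar.ρ g) = 1 := fun g hg =>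
    twg_det_eq_one_of_fixes ρbar p hpk hdet (n + 1) (Nat.succ_ne_zero n) g
      ((twpChi_eq_one_iff_fixes (p ^ (n + 1)) g).1 hg)
  by_cases hx : H1π (tateDual p (ad0Rep ρbar)) c = 0
  · -- any regular element of the kernel of the character
    have hirr' : TwgIrr ρbar.ρ (twpChi (p ^ (n + 1))).ker :=
      twg_irr_of_normal_cyclic hV ρbar.ρ _ hcyc hsplit' hirr (fun S _ hS => hirr2 S hS)
    obtain ⟨w, hw0, hw⟩ := twp_exists_traceZero_ne_zero (k := k) (V := ρbar.V) hV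
    obtain ⟨s, hs, α, β, hαβ, hch, -⟩ := twg_exists_regular_trace_ne_zero h2 hV ρbar.ρ
      (twpChi (p ^ (n + 1))).ker hirr' (fun g _ => hsplit' g (Subgroup.mem_top _))
      (fun g hg => hdetχ g (MonoidHom.mem_ker.mp hg)) w hw0 hw
    exact ⟨s, MonoidHom.mem_ker.mp hs, α, β, hαβ, hch, fun h => absurd hx h⟩
  · have hp3 : p = 3 ∨ ∃ g, LinearMap.det (ρbar.ρ g) ^ 2 ≠ 1 := by
      by_cases h3 : p = 3
      · exact Or.inl h3
      · right
        have h5 : 5 ≤ p := by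
          have h2' := hp.two_le
          rcases Nat.lt_or_ge p 5 with h | h
          · interval_cases p
            · exact absurd rfl hp2
            · exact absurd rfl h3
            · exact absurd hp (by decide)
          · exact h
        obtain ⟨g, hg⟩ := Fermat.Agent.CFT.S14.exists_cycloExp_eq p (t := 2) (by norm_num)
          (by omega)
        refine ⟨g, ?_⟩
        rw [hdetK g, twg_coe_cycloK, hg]
        intro h4
        have h3' : ((3 : ℕ) : k) = 0 := by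
          push_cast at h4 ⊢
          linear_combination h4
        rw [CharP.cast_eq_zero_iff k p] at h3'
        have := Nat.le_of_dvd (by norm_num) h3'
        omega
    have hnc : ¬ ∃ x : Module.End k ρbar.V, LinearMap.trace k ρbar.V x = 0 ∧
        ∀ g, twgPsi ρbar h2 c g = twgAdDetRep ρbar.ρ g x - x :=
      fun h => hx (twgPsi_coboundary ρbar h2 hdetK c h)
    obtain ⟨σ, hσ, α, β, hαβ, hch, hne⟩ := twg_selection p hp2 hV ρbar.ρ hsplit' hirr hirr2 hp3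
      (twpChi (p ^ (n + 1))) hcyc hdetχ (twgPsi_isCocycle ρbar h2 hdetK c)
      (trace_twgPsi ρbar h2 c) hnc
    exact ⟨σ, hσ, α, β, hαβ, hch, fun _ => hne⟩

/-- **Existence of a Taylor–Wiles prime.**  For every cocycle `c` with values in `(ad⁰ ρbar)^*(1)`
which is constant modulo a finite level, every `n` and every finite set `T` there is a prime
`l ∉ T`, `l ≡ 1 mod p^(n+1)`, which is a Taylor–Wiles prime for `ρbar`, such that the class of `c`
restricts to a non-zero class in `H¹(G_l, (ad⁰ ρbar)^*(1))` unless it is zero. -/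
theorem twp_exists_prime (hR4 : ∀ q : Nat.Primes, TwpR4 q) (hp2 : p ≠ 2) (hpk : (p : k) = 0)
    (habs : ρbar.IsAbsolutelyIrreducible)
    (hdet : (GaloisRepAdic.ofResidualGaloisRep ρbar).DetIsCyclotomic p)
    (hsplit : ∀ σ : AlgebraicClosure ℚ ≃ₐ[ℚ] AlgebraicClosure ℚ,
      ∃ α β : k, LinearMap.charpoly (ρbar.ρ σ) = (X - C α) * (X - C β))
    (hTW : ∀ (K : Type) [Field K] [Algebra k K]
      (G : Subgroup (AlgebraicClosure ℚ ≃ₐ[ℚ] AlgebraicClosure ℚ)), G.index = 2 →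
      ∀ V : Submodule K (ρbar.baseChange K).V,
        (∀ σ ∈ G, ∀ x ∈ V, (ρbar.baseChange K).ρ σ x ∈ V) → V = ⊥ ∨ V = ⊤)
    (c : cocycles₁ (tateDual p (ad0Rep ρbar)))
    (hc : ∃ F : IntermediateField ℚ (AlgebraicClosure ℚ), FiniteDimensional ℚ F ∧
      ∀ g s, s ∈ F.fixingSubgroup → c (g * s) = c g)
    (n : ℕ) (T : Finset ℕ) :
    ∃ l : Nat.Primes, (l : ℕ) ∉ T ∧ p ^ (n + 1) ∣ (l : ℕ) - 1 ∧ IsTWPrime ρbar l ∧
      (H1π (tateDual p (ad0Rep ρbar)) c ≠ 0 →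
        resAt l (tateDual p (ad0Rep ρbar)) (H1π (tateDual p (ad0Rep ρbar)) c) ≠ 0) := by
  have hp : p.Prime := Fact.out
  haveI : Fact (1 < p ^ (n + 1)) := ⟨Nat.one_lt_pow (Nat.succ_ne_zero n) hp.one_lt⟩
  haveI : CharP k p := (CharP.charP_iff_prime_eq_zero hp).2 hpk
  have h2 : (2 : k) ≠ 0 := by
    intro h
    have h2' : ((2 : ℕ) : k) = 0 := by exact_mod_cast h
    rw [CharP.cast_eq_zero_iff k p] at h2'
    exact hp2 ((Nat.prime_dvd_prime_iff_eq hp Nat.prime_two).mp h2')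
  have hV := ρbar.finrank_eq
  have hdetK := twg_det_eq_cycloK ρbar p hpk hdet
  obtain ⟨σ, hχσ, α, β, hαβ, hch, hsel⟩ :=
    twp_exists_sigma p ρbar hp2 hpk h2 habs hdet hsplit hTW c n
  have hdetσ : LinearMap.det (ρbar.ρ σ) = 1 :=
    twg_det_eq_one_of_fixes ρbar p hpk hdet (n + 1) (Nat.succ_ne_zero n) σ
      ((twpChi_eq_one_iff_fixes (p ^ (n + 1)) σ).1 hχσ)
  -- the level
  obtain ⟨F₁, hF₁fin, hF₁⟩ := hc
  obtain ⟨Fρ, hFρfin, hFρ⟩ := ρbar.factorsThroughFiniteLevel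
  obtain ⟨F₀, hF₀fin, hF₀⟩ := twp_trivialOnLevel_tateDual p _ (twp_trivialOnLevel_ad0 ρbar)
  haveI := hF₁fin
  haveI := hFρfin
  haveI := hF₀fin
  obtain ⟨L₁, hL₁⟩ := Fermat.Agent.CFT.Bridge.exists_level_N_le F₁
  obtain ⟨L₂, hL₂⟩ := Fermat.Agent.CFT.Bridge.exists_level_N_le Fρ
  obtain ⟨L₃, hL₃⟩ := Fermat.Agent.CFT.Bridge.exists_level_N_le F₀
  set Lv : Fermat.Agent.CFT.Level := L₁ ⊔ L₂ ⊔ L₃ ⊔ cycloLevel (p ^ (n + 1)) with hLv
  have hN₁ : Lv.N ≤ F₁.fixingSubgroup :=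
    (Fermat.Agent.CFT.Level.N_anti (le_sup_left.trans (le_sup_left.trans le_sup_left))).trans hL₁
  have hN₂ : Lv.N ≤ Fρ.fixingSubgroup :=
    (Fermat.Agent.CFT.Level.N_anti (le_sup_right.trans (le_sup_left.trans le_sup_left))).trans hL₂
  have hN₃ : Lv.N ≤ F₀.fixingSubgroup :=
    (Fermat.Agent.CFT.Level.N_anti (le_sup_right.trans le_sup_left)).trans hL₃
  have hN₄ : Lv.N ≤ (cycloLevel (p ^ (n + 1))).N := Fermat.Agent.CFT.Level.N_anti le_sup_right
  have hNρ : ∀ s ∈ Lv.N, ρbar.ρ s = 1 := fun s hs =>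
    hFρ s (fun x hx => (IntermediateField.mem_fixingSubgroup_iff _ _).mp (hN₂ hs) x hx)
  have hNχ : ∀ s ∈ Lv.N, twpChi (p ^ (n + 1)) s = 1 := fun s hs =>
    twpChi_eq_one_of_mem (p ^ (n + 1)) (hN₄ hs)
  have hNc : ∀ s ∈ Lv.N, c s = 0 := by
    intro s hs
    have := hF₁ 1 s (hN₁ hs)
    rw [one_mul] at this
    rw [this, cocycles₁_map_one]
  have hNψ : ∀ s ∈ Lv.N, twgPsi ρbar h2 c s = 0 := by
    intro s hs
    unfold twgPsi
    rw [hNc s hs, map_zero]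
    rfl
  -- Frobenius density
  haveI : Normal ℚ ↥Lv.toIntermediateField := IsGalois.to_normal
  obtain ⟨l, hl, hlT, P, φ, hP, hφ, hI, a, ha, hφa⟩ :=
    Fermat.Agent.FrobDensity.exists_frobenius_generating Lv.toIntermediateField σ (insert p T)
  set m := orderOf (AlgEquiv.restrictNormalHom (F := ℚ) (K₁ := AlgebraicClosure ℚ)
    ↥Lv.toIntermediateField σ) with hm
  have hσm : σ ^ m ∈ Lv.N := by
    have h1 : AlgEquiv.restrictNormalHom (F := ℚ) (K₁ := AlgebraicClosure ℚ)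
        ↥Lv.toIntermediateField (σ ^ m) = 1 := by rw [map_pow, hm, pow_orderOf_eq_one]
    show σ ^ m ∈ Lv.toIntermediateField.fixingSubgroup
    rw [IntermediateField.mem_fixingSubgroup_iff]
    intro x hx
    have : algebraMap ↥Lv.toIntermediateField (AlgebraicClosure ℚ)
        ((AlgEquiv.restrictNormalHom (F := ℚ) (K₁ := AlgebraicClosure ℚ)
          ↥Lv.toIntermediateField (σ ^ m)) ⟨x, hx⟩) =
        (σ ^ m) (algebraMap ↥Lv.toIntermediateField (AlgebraicClosure ℚ) ⟨x, hx⟩) :=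
      AlgEquiv.restrictNormal_commutes (σ ^ m) ↥Lv.toIntermediateField ⟨x, hx⟩
    rw [h1] at this
    exact this.symm
  have hφN : (σ ^ a)⁻¹ * φ ∈ Lv.N := by
    show (σ ^ a)⁻¹ * φ ∈ Lv.toIntermediateField.fixingSubgroup
    rw [IntermediateField.mem_fixingSubgroup_iff]
    intro x hx
    rw [AlgEquiv.mul_apply, hφa x hx]
    exact (σ ^ a).symm_apply_apply x
  have hIN : P.inertiaSubgroupIn ℚ ≤ Lv.N := by
    intro τ hτ
    show τ ∈ Lv.toIntermediateField.fixingSubgroup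
    rw [IntermediateField.mem_fixingSubgroup_iff]
    exact hI τ hτ
  have hlp : l ≠ p := fun h => hlT (h ▸ Finset.mem_insert_self p T)
  have hlT' : l ∉ T := fun h => hlT (Finset.mem_insert_of_mem h)
  have hχφ : twpChi (p ^ (n + 1)) φ = 1 := by
    have h1 : φ = σ ^ a * ((σ ^ a)⁻¹ * φ) := by rw [mul_inv_cancel_left]
    rw [h1, map_mul, map_pow, hχσ, one_pow, one_mul, hNχ _ hφN]
  have hcop : Nat.Coprime (p ^ (n + 1)) l :=
    Nat.Coprime.pow_left _ ((Nat.coprime_primes hp hl).2 (Ne.symm hlp))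
  have hdvd : p ^ (n + 1) ∣ l - 1 := twp_dvd_sub_one_of_frobenius (p ^ (n + 1)) hl hcop hP hφ hχφ
  obtain ⟨α', β', hαβ', hch'⟩ := twp_regular_frob hV ρbar.ρ Lv.N hNρ σ hdetσ α β hαβ hch m hσm a
    ha φ hφN
  refine ⟨⟨l, hl⟩, hlT', hdvd, ?_, ?_⟩
  · exact twp_isTWPrime_of_frobenius ρbar hl hP hφ (fun τ hτ => hNρ τ (hIN hτ)) hαβ' hch'
  · intro hx
    obtain ⟨α'', β'', -, -, htrφ⟩ := twg_selection_frob p hV ρbar.ρ
      (twgPsi_isCocycle ρbar h2 hdetK c) (trace_twgPsi ρbar h2 c) Lv.N hNρ hNψ σ hdetσ α β hαβ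
      hch (hsel hx) m hσm a ha φ hφN
    have hdetφ : LinearMap.det (ρbar.ρ φ) = 1 :=
      twg_det_eq_one_of_fixes ρbar p hpk hdet (n + 1) (Nat.succ_ne_zero n) φ
        ((twpChi_eq_one_iff_fixes (p ^ (n + 1)) φ).1 hχφ)
    refine twp_resAt_ne_zero p ρbar h2 hdetK c (F₁ ⊔ F₀) inferInstance ?_ ?_ ⟨l, hl⟩ (hR4 _) hP
      hφ.mem_decompositionSubgroup hdetφ htrφ
    · intro g s hs
      rw [IntermediateField.fixingSubgroup_sup] at hs
      exact hF₁ g s hs.1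
    · intro s hs
      rw [IntermediateField.fixingSubgroup_sup] at hs
      exact hF₀ s hs.2

end

end Fermat.Agent.TW
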