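/-
P10 / S56 (Taylor–Wiles primes), assembly of (C-TW), part 7: the contract (C-TW).

`tw_contractTW` : under the hypotheses of S56, for every family of local pairings satisfying
(C-PERF) and every family of local conditions, (C-TW) holds — modulo the statement (R4)
(`TwpR4`: the decomposition group of the distinguished place over `q` is topologically generated
by the image of the local Galois group).
-/
import Fermat.Agent.Lib.TW.TWPrimes.Exists

set_option autoImplicit false
set_option linter.style.haveILetI false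
set_option linter.unusedSectionVars false

open Polynomial groupCohomology Fermat.Agent.S53Lib ExtCitation

namespace Fermat.Agent.TW

noncomputable section

variable {k : Type} [Field k] [Finite k] (p : ℕ) [Fact p.Prime] [Algebra (ZMod p) k]
  (ρbar : ResidualGaloisRep k)

/-- `(ad⁰ ρbar)^*(1)` is unramified outside every set of primes containing `Smin` -/
theorem twp_unramified_tateDual_ad0 (Smin : Finset ℕ) (hpSmin : p ∈ Smin)
    (hmin : ∀ q : ℕ, q.Prime → q ≠ p → (q ∈ Smin ↔ ¬ ρbar.IsUnramifiedAt q))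
    (T : Finset ℕ) (hT : Smin ⊆ T) :
    IsUnramifiedOutsideRep (primesOf T) (tateDual p (ad0Rep ρbar)) := by
  apply twp_isUnramifiedOutsideRep_tateDual p (primesOf T) (mem_primesOf.2 (hT hpSmin))
  apply isUnramifiedOutsideRep_ad0
  intro q hq
  have hqT : (q : ℕ) ∉ T := fun h => hq (mem_primesOf.2 h)
  have hqS : (q : ℕ) ∉ Smin := fun h => hqT (hT h)
  have hqp : (q : ℕ) ≠ p := fun h => hqS (h ▸ hpSmin)
  by_contra hram
  exact hqS ((hmin q q.2 hqp).2 hram)

/-- adding a prime outside `T ⊇ Smin` to the dual Selmer problem -/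
theorem twp_dualSelmer_step (hR4 : ∀ q : Nat.Primes, TwpR4 q) (Smin : Finset ℕ) (hpSmin : p ∈ Smin)
    (hmin : ∀ q : ℕ, q.Prime → q ≠ p → (q ∈ Smin ↔ ¬ ρbar.IsUnramifiedAt q))
    (tp : LocalPairings (ad0Rep ρbar) (tateDual p (ad0Rep ρbar))) (hperf : ContractPerf tp)
    (L : LocalConditions (ad0Rep ρbar))
    (hLtop : ∀ q : Nat.Primes, (q : ℕ) ∉ Smin → L q = locCont q (ad0Rep ρbar))
    (T : Finset ℕ) (hT : Smin ⊆ T) (l : Nat.Primes) (hl : (l : ℕ) ∉ T) :
    dualSelmerGroup (primesOf (insert (l : ℕ) T)) tp L ≤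
      dualSelmerGroup (primesOf T) tp L ⊓
        LinearMap.ker (resAt l (tateDual p (ad0Rep ρbar))) := by
  rw [twp_primesOf_insert]
  exact twp_dualSelmer_insert_le (primesOf T) l (fun h => hl (mem_primesOf.1 h)) tp hperf L
    (hLtop l (fun h => hl (hT h))) (hR4 l)
    (twp_trivialOnLevel_tateDual p _ (twp_trivialOnLevel_ad0 ρbar))
    (twp_unramified_tateDual_ad0 p ρbar Smin hpSmin hmin T hT)

/-- **the induction**: killing the dual Selmer group with `r ≥ dim` Taylor–Wiles primes -/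
theorem twp_kill (hR4 : ∀ q : Nat.Primes, TwpR4 q) (hp2 : p ≠ 2) (hpk : (p : k) = 0)
    (habs : ρbar.IsAbsolutelyIrreducible)
    (hdet : (GaloisRepAdic.ofResidualGaloisRep ρbar).DetIsCyclotomic p)
    (hsplit : ∀ σ : AlgebraicClosure ℚ ≃ₐ[ℚ] AlgebraicClosure ℚ,
      ∃ α β : k, LinearMap.charpoly (ρbar.ρ σ) = (X - C α) * (X - C β))
    (hTW : ∀ (K : Type) [Field K] [Algebra k K]
      (G : Subgroup (AlgebraicClosure ℚ ≃ₐ[ℚ] AlgebraicClosure ℚ)), G.index = 2 →
      ∀ V : Submodule K (ρbar.baseChange K).V,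
        (∀ σ ∈ G, ∀ x ∈ V, (ρbar.baseChange K).ρ σ x ∈ V) → V = ⊥ ∨ V = ⊤)
    (Smin : Finset ℕ) (hpSmin : p ∈ Smin)
    (hmin : ∀ q : ℕ, q.Prime → q ≠ p → (q ∈ Smin ↔ ¬ ρbar.IsUnramifiedAt q))
    (tp : LocalPairings (ad0Rep ρbar) (tateDual p (ad0Rep ρbar))) (hperf : ContractPerf tp)
    (L : LocalConditions (ad0Rep ρbar))
    (hLtop : ∀ q : Nat.Primes, (q : ℕ) ∉ Smin → L q = locCont q (ad0Rep ρbar)) (n : ℕ) :
    ∀ (r : ℕ) (T : Finset ℕ), Smin ⊆ T →
      FiniteDimensional k (dualSelmerGroup (primesOf T) tp L) →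
      Module.finrank k (dualSelmerGroup (primesOf T) tp L) ≤ r → ∀ E : Finset ℕ,
      ∃ qv : Fin r → ℕ, Function.Injective qv ∧
        (∀ i, (qv i).Prime ∧ qv i ∉ E ∧ qv i ∉ T ∧ p ^ (n + 1) ∣ qv i - 1) ∧
        (∀ i, IsTWPrime ρbar (qv i)) ∧
        dualSelmerGroup (primesOf (T ∪ Finset.univ.image qv)) tp L = ⊥ := by
  intro r
  induction r with
  | zero =>
    intro T _ hfin hrk E
    refine ⟨Fin.elim0, fun i => i.elim0, fun i => i.elim0, fun i => i.elim0, ?_⟩
    have h0 : dualSelmerGroup (primesOf T) tp L = ⊥ := by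
      haveI := hfin
      exact Submodule.finrank_eq_zero.1 (Nat.le_zero.1 hrk)
    have : T ∪ Finset.univ.image (Fin.elim0 : Fin 0 → ℕ) = T := by
      rw [Finset.univ_eq_empty, Finset.image_empty, Finset.union_empty]
    rw [this, h0]
  | succ r ih =>
    intro T hT hfin hrk E
    haveI := hfin
    -- a class in the dual Selmer group, non-zero if possible
    obtain ⟨x, hxD, hx0⟩ : ∃ x ∈ dualSelmerGroup (primesOf T) tp L,
        dualSelmerGroup (primesOf T) tp L ≠ ⊥ → x ≠ 0 := by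
      by_cases hbot : dualSelmerGroup (primesOf T) tp L = ⊥
      · exact ⟨0, Submodule.zero_mem _, fun h => absurd hbot h⟩
      · obtain ⟨x, hx, hx0⟩ := (Submodule.ne_bot_iff _).1 hbot
        exact ⟨x, hx, fun _ => hx0⟩
    have hxadm := ((twp_mem_dualSelmerGroup_iff (primesOf T) tp L x).1 hxD).2
    obtain ⟨c, ⟨F, ⟨hFfin, -⟩, hconst⟩, rfl⟩ := (mem_continuousH1S_iff _ _ x).1 hxadm
    obtain ⟨l, hlET, hdvd, hlTW, hres⟩ := twp_exists_prime p ρbar hR4 hp2 hpk habs hdet hsplit
      hTW c ⟨F, hFfin, hconst⟩ n (E ∪ T)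
    have hlE : (l : ℕ) ∉ E := fun h => hlET (Finset.mem_union_left _ h)
    have hlT : (l : ℕ) ∉ T := fun h => hlET (Finset.mem_union_right _ h)
    have hstep := twp_dualSelmer_step p ρbar hR4 Smin hpSmin hmin tp hperf L hLtop T hT l hlT
    have hle : dualSelmerGroup (primesOf (insert (l : ℕ) T)) tp L ≤
        dualSelmerGroup (primesOf T) tp L := hstep.trans inf_le_left
    have hfin' : FiniteDimensional k (dualSelmerGroup (primesOf (insert (l : ℕ) T)) tp L) :=
      Submodule.finiteDimensional_of_le hle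
    have hrk' : Module.finrank k (dualSelmerGroup (primesOf (insert (l : ℕ) T)) tp L) ≤ r := by
      by_cases hbot : dualSelmerGroup (primesOf T) tp L = ⊥
      · have : dualSelmerGroup (primesOf (insert (l : ℕ) T)) tp L = ⊥ := by
          rw [eq_bot_iff, ← hbot]; exact hle
        rw [this, finrank_bot]
        exact Nat.zero_le r
      · have hlt : dualSelmerGroup (primesOf (insert (l : ℕ) T)) tp L <
            dualSelmerGroup (primesOf T) tp L := by
          refine lt_of_le_of_ne hle (fun heq => ?_)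
          have h1 : (H1π (tateDual p (ad0Rep ρbar))) c ∈
              dualSelmerGroup (primesOf (insert (l : ℕ) T)) tp L := heq ▸ hxD
          have h2 : (H1π (tateDual p (ad0Rep ρbar))) c ∈
              LinearMap.ker (resAt l (tateDual p (ad0Rep ρbar))) := (hstep h1).2
          exact hres (hx0 hbot) (LinearMap.mem_ker.1 h2)
        have := Submodule.finrank_lt_finrank_of_lt hlt
        omega
    obtain ⟨qv', hinj', hprops', hTW', hbot'⟩ := ih (insert (l : ℕ) T)
      (hT.trans (Finset.subset_insert _ _)) hfin' hrk' (insert (l : ℕ) E)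
    refine ⟨Fin.cons (l : ℕ) qv', ?_, ?_, ?_, ?_⟩
    · rw [Fin.cons_injective_iff]
      refine ⟨?_, hinj'⟩
      rintro ⟨i, hi⟩
      exact (hprops' i).2.1 (hi ▸ Finset.mem_insert_self _ _)
    · intro i
      refine Fin.cases ?_ (fun j => ?_) i
      · rw [Fin.cons_zero]
        exact ⟨l.2, hlE, hlT, hdvd⟩
      · rw [Fin.cons_succ]
        obtain ⟨h1, h2, h3, h4⟩ := hprops' j
        exact ⟨h1, fun h => h2 (Finset.mem_insert_of_mem h),
          fun h => h3 (Finset.mem_insert_of_mem h), h4⟩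
    · intro i
      refine Fin.cases ?_ (fun j => ?_) i
      · rw [Fin.cons_zero]; exact hlTW
      · rw [Fin.cons_succ]; exact hTW' j
    · have : T ∪ Finset.univ.image (Fin.cons (l : ℕ) qv' : Fin (r + 1) → ℕ) =
          insert (l : ℕ) T ∪ Finset.univ.image qv' := by
        ext a
        simp only [Finset.mem_union, Finset.mem_image, Finset.mem_univ, true_and,
          Finset.mem_insert, Fin.exists_fin_succ, Fin.cons_zero, Fin.cons_succ]
        tauto
      rw [this]
      exact hbot'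

/-- **(C-TW)** under the hypotheses of S56, for every family of local pairings satisfying
(C-PERF), modulo (R4). -/
theorem tw_contractTW (hR4 : ∀ q : Nat.Primes, TwpR4 q) (hp2 : p ≠ 2) (hpk : (p : k) = 0)
    (habs : ρbar.IsAbsolutelyIrreducible)
    (hdet : (GaloisRepAdic.ofResidualGaloisRep ρbar).DetIsCyclotomic p)
    (hsplit : ∀ σ : AlgebraicClosure ℚ ≃ₐ[ℚ] AlgebraicClosure ℚ,
      ∃ α β : k, LinearMap.charpoly (ρbar.ρ σ) = (X - C α) * (X - C β))
    (hTW : ∀ (K : Type) [Field K] [Algebra k K]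
      (G : Subgroup (AlgebraicClosure ℚ ≃ₐ[ℚ] AlgebraicClosure ℚ)), G.index = 2 →
      ∀ V : Submodule K (ρbar.baseChange K).V,
        (∀ σ ∈ G, ∀ x ∈ V, (ρbar.baseChange K).ρ σ x ∈ V) → V = ⊥ ∨ V = ⊤)
    (S Smin : Finset ℕ) (hpSmin : p ∈ Smin)
    (hmin : ∀ q : ℕ, q.Prime → q ≠ p → (q ∈ Smin ↔ ¬ ρbar.IsUnramifiedAt q))
    (tp : LocalPairings (ad0Rep ρbar) (tateDual p (ad0Rep ρbar))) (hperf : ContractPerf tp)
    (L : LocalConditions (ad0Rep ρbar)) : ContractTW p ρbar S Smin tp L := by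
  intro hLtop hWfin n
  obtain ⟨qv, hinj, hprops, hTWp, hbot⟩ := twp_kill p ρbar hR4 hp2 hpk habs hdet hsplit hTW Smin
    hpSmin hmin tp hperf L hLtop n _ Smin subset_rfl hWfin le_rfl S
  exact ⟨qv, hinj, fun i => ⟨(hprops i).1, (hprops i).2.1, (hprops i).2.2.2⟩, hTWp, hbot⟩

end

end Fermat.Agent.TW
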