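/-
P10 / S56 (Taylor–Wiles primes), assembly of (C-TW), part 2: the dual Selmer group and its
behaviour when a prime `l` with `L l = locCont l M` is added.
-/
import Fermat.Agent.Lib.TW.TWPrimes.Descent
import Fermat.Agent.Lib.TW.Wiring
import Fermat.Agent.Lib.CFT.Bridge.Cyclo

set_option autoImplicit false

open Fermat.Agent.S53Lib groupCohomology ExtCitation CategoryTheory

namespace Fermat.Agent.TW

noncomputable section

variable {k : Type} [Field k]

section General

variable {M M' : Rep.{0} k GQ}

/-- membership in the dual Selmer group, unfolded -/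
theorem twp_mem_dualSelmerGroup_iff (S' : Finset Nat.Primes) (tp : LocalPairings M M')
    (L : LocalConditions M) (x : H1 M') :
    x ∈ dualSelmerGroup S' tp L ↔
      (∀ q ∈ S', ∀ y ∈ L q, tp q y (resAt q M' x) = 0) ∧ x ∈ continuousH1S S' M' := by
  unfold dualSelmerGroup
  rw [mem_selmerAdm_iff]
  apply and_congr_left'
  constructor
  · intro h q hq y hy
    have h1 := h (Sum.inr ⟨q, hq⟩)
    rw [dualConditions, mem_orthogonal_iff] at h1
    exact h1 y hy
  · rintro h (u | ⟨q, hq⟩)
    · rw [dualConditions, mem_orthogonal_iff]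
      intro y _
      rfl
    · rw [dualConditions, mem_orthogonal_iff]
      exact h q hq

/-- **adding a prime `l` at which the local condition is everything**: the dual Selmer group
shrinks to the classes which are trivial at `l`. -/
theorem twp_dualSelmer_insert_le (T : Finset Nat.Primes) (l : Nat.Primes) (hl : l ∉ T)
    (tp : LocalPairings M M') (hperf : ContractPerf tp) (L : LocalConditions M)
    (hL : L l = locCont l M) (hR4 : TwpR4 l) (hM' : TwpTrivialOnLevel M')
    (hunr : IsUnramifiedOutsideRep T M') :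
    dualSelmerGroup (insert l T) tp L ≤
      dualSelmerGroup T tp L ⊓ LinearMap.ker (resAt l M') := by
  intro x hx
  rw [twp_mem_dualSelmerGroup_iff] at hx
  obtain ⟨hloc, hadm⟩ := hx
  have hres : resAt l M' x = 0 := by
    apply hperf l _ (resAt_mem_locCont l _ M' hadm)
    intro y hy
    exact hloc l (Finset.mem_insert_self l T) y (hL ▸ hy)
  rw [Submodule.mem_inf, LinearMap.mem_ker, twp_mem_dualSelmerGroup_iff]
  exact ⟨⟨fun q hq => hloc q (Finset.mem_insert_of_mem hq),
    twp_descent T l hl M' hR4 hM' hunr hadm hres⟩, hres⟩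

end General

section TateDual

variable (p : ℕ) [Fact p.Prime] [Algebra (ZMod p) k]

/-- the mod `p` cyclotomic character is trivial on the inertia groups over `q ≠ p` -/
lemma twp_cycloK_eq_one_of_mem_inertia {q : ℕ} (hq : q.Prime) (hqp : q ≠ p)
    (A : ValuationSubring (AlgebraicClosure ℚ)) (hA : A.LiesOverPrime q) (σ : GQ)
    (hσ : σ ∈ A.inertiaSubgroupIn ℚ) : cycloK p k σ = 1 := by
  unfold cycloK
  rw [MonoidHom.comp_apply,
    Fermat.Agent.CFT.Bridge.cycloChar_eq_one_of_mem_inertia p hq hqp A hA σ hσ, map_one]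

/-- the Tate dual of a representation which is unramified outside `S' ∋ p` is unramified
outside `S'` -/
theorem twp_isUnramifiedOutsideRep_tateDual (S' : Finset Nat.Primes) (hp : pPrime p ∈ S')
    (M : Rep.{0} k GQ) (hM : IsUnramifiedOutsideRep S' M) :
    IsUnramifiedOutsideRep S' (tateDual p M) := by
  intro q hq A hA g hg
  have hqp : (q : ℕ) ≠ p := by
    rintro h
    apply hq
    have : q = pPrime p := Subtype.ext h
    rw [this]
    exact hp
  have h1 : M.ρ g⁻¹ = 1 := hM q hq A hA g⁻¹ (inv_mem hg)
  apply LinearMap.ext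
  intro f
  rw [Rep.dualTwist_ρ_apply, twp_cycloK_eq_one_of_mem_inertia p q.2 hqp A hA g hg, h1,
    Units.val_one, one_smul]
  rfl

/-- the Tate dual of a representation which is trivial on an open subgroup is so -/
theorem twp_trivialOnLevel_tateDual (M : Rep.{0} k GQ) (hM : TwpTrivialOnLevel M) :
    TwpTrivialOnLevel (tateDual p M) := by
  obtain ⟨F, hFfin, hF⟩ := hM
  obtain ⟨F', hF'fin, hF'⟩ := Fermat.Agent.CFT.Bridge.exists_finiteDimensional_cycloChar p
  have := hFfin
  have := hF'fin
  refine ⟨F ⊔ F', inferInstance, fun s hs => ?_⟩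
  rw [IntermediateField.fixingSubgroup_sup] at hs
  have h1 : M.ρ s⁻¹ = 1 := hF s⁻¹ (inv_mem hs.1)
  have h2 : cycloK p k s = 1 := by
    unfold cycloK
    rw [MonoidHom.comp_apply, hF' s hs.2, map_one]
  apply LinearMap.ext
  intro f
  rw [Rep.dualTwist_ρ_apply, h2, h1, Units.val_one, one_smul]
  rfl

end TateDual

section Ad0

variable (ρbar : ResidualGaloisRep k)

/-- `ad⁰ ρbar` is trivial on an open subgroup -/
theorem twp_trivialOnLevel_ad0 : TwpTrivialOnLevel (ad0Rep ρbar) := by
  obtain ⟨F, hFfin, hF⟩ := ρbar.factorsThroughFiniteLevel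
  refine ⟨F, hFfin, fun s hs => ?_⟩
  have h1 : ρbar.ρ s = 1 :=
    hF s (fun x hx => (IntermediateField.mem_fixingSubgroup_iff _ _).mp hs x hx)
  have h1' : ρbar.ρ s⁻¹ = 1 := by
    have h2 := rho_inv_mul_rho ρbar s
    rwa [h1, mul_one] at h2
  apply LinearMap.ext
  intro x
  apply ad0Val_injective
  rw [ad0Val_ρ, adRepn_apply, h1, h1']
  rfl

end Ad0

/-- `primesOf` of an inserted prime -/
lemma twp_primesOf_insert (T : Finset ℕ) (l : Nat.Primes) :
    primesOf (insert (l : ℕ) T) = insert l (primesOf T) := by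
  ext q
  rw [mem_primesOf, Finset.mem_insert, Finset.mem_insert, mem_primesOf]
  constructor
  · rintro (h | h)
    · exact Or.inl (Subtype.ext h)
    · exact Or.inr h
  · rintro (h | h)
    · exact Or.inl (congrArg Subtype.val h)
    · exact Or.inr h

end

end Fermat.Agent.TW
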